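import Fermat.Agent.Lazard.Series
import Mathlib.Algebra.Algebra.Subalgebra.Basic
import Mathlib.Algebra.Algebra.Rat

/-!
# Formal group laws with a logarithm
-/

set_option autoImplicit false

noncomputable section

open MvPowerSeries Finsupp

namespace Fermat.Agent.Lazard

variable {R : Type*} [CommRing R]

/-- Substitution of series into a series in one variable, then in several. -/
theorem subst_powerSeries_subst {σ τ : Type*} [Finite σ] (v : σ → MvPowerSeries τ R)
    (hv : ∀ s, (v s).constantCoeff = 0) {a : MvPowerSeries σ R} (ha : a.constantCoeff = 0)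
    (f : PowerSeries R) :
    MvPowerSeries.subst v (PowerSeries.subst a f) =
      PowerSeries.subst (MvPowerSeries.subst v a) f := by
  rw [PowerSeries.subst, PowerSeries.subst, subst_comp_subst_apply
    (PowerSeries.HasSubst.of_constantCoeff_zero ha).const (hasSubst_of_constantCoeff_zero hv)]

variable (g : PowerSeries R) (hg0 : g.constantCoeff = 0) (hg1 : g.coeff 1 = 1)

/-- The sum of `g` at the two variables. -/
def logSum : MvPowerSeries (Fin 2) R :=
  PowerSeries.subst (X 0) g + PowerSeries.subst (X 1) g

include hg0 in
theorem constantCoeff_logSum : (logSum g).constantCoeff = 0 := by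
  rw [logSum, map_add, PowerSeries.constantCoeff_subst_eq_zero (constantCoeff_X 0) g hg0,
    PowerSeries.constantCoeff_subst_eq_zero (constantCoeff_X 1) g hg0, add_zero]

include hg1 in
theorem isUnit_coeff_one : IsUnit (g.coeff 1) := by rw [hg1]; exact isUnit_one

/-- The series `g⁻¹ (g X + g Y)`. -/
def addLogSeries : MvPowerSeries (Fin 2) R :=
  PowerSeries.subst (logSum g) (g.substInvOfIsUnit (isUnit_coeff_one g hg1))

include hg0 in
theorem constantCoeff_addLogSeries : (addLogSeries g hg1).constantCoeff = 0 :=
  PowerSeries.constantCoeff_subst_eq_zero (constantCoeff_logSum g hg0) _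
    (PowerSeries.constantCoeff_substInvOfIsUnit g _)

include hg0 in
theorem subst_addLogSeries {τ : Type*} (v : Fin 2 → MvPowerSeries τ R)
    (hv : ∀ s, (v s).constantCoeff = 0) :
    (addLogSeries g hg1).subst v = PowerSeries.subst
      (PowerSeries.subst (v 0) g + PowerSeries.subst (v 1) g)
      (g.substInvOfIsUnit (isUnit_coeff_one g hg1)) := by
  have hv' := hasSubst_of_constantCoeff_zero hv
  rw [addLogSeries, subst_powerSeries_subst v hv (constantCoeff_logSum g hg0), logSum,
    subst_add hv', subst_powerSeries_subst v hv (constantCoeff_X 0),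
    subst_powerSeries_subst v hv (constantCoeff_X 1), subst_X hv', subst_X hv']

include hg0 in
theorem log_addLogSeries {τ : Type*} (v : Fin 2 → MvPowerSeries τ R)
    (hv : ∀ s, (v s).constantCoeff = 0) :
    PowerSeries.subst ((addLogSeries g hg1).subst v) g =
      PowerSeries.subst (v 0) g + PowerSeries.subst (v 1) g := by
  have hs : PowerSeries.HasSubst (PowerSeries.subst (v 0) g + PowerSeries.subst (v 1) g) :=
    PowerSeries.HasSubst.of_constantCoeff_zero (by
      rw [map_add, PowerSeries.constantCoeff_subst_eq_zero (hv 0) g hg0,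
        PowerSeries.constantCoeff_subst_eq_zero (hv 1) g hg0, add_zero])
  rw [subst_addLogSeries g hg0 hg1 v hv,
    ← PowerSeries.subst_comp_subst_apply (PowerSeries.HasSubst.substInvOfIsUnit g _) hs,
    PowerSeries.subst_substInvOfIsUnit_right g hg0, PowerSeries.subst_X hs]

theorem coeff_logSum_mixed {e : Fin 2 →₀ ℕ} (h0 : e 0 ≠ 0) (h1 : e 1 ≠ 0) :
    coeff e (logSum g) = 0 := by
  classical
  rw [logSum, map_add, PowerSeries.coeff_subst (PowerSeries.HasSubst.X 0),
    PowerSeries.coeff_subst (PowerSeries.HasSubst.X 1), finsum_eq_zero_of_forall_eq_zero,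
    finsum_eq_zero_of_forall_eq_zero, add_zero]
  · intro d
    rw [coeff_X_pow, if_neg (fun h => h0 (by rw [h]; simp)), smul_zero]
  · intro d
    rw [coeff_X_pow, if_neg (fun h => h1 (by rw [h]; simp)), smul_zero]

theorem coeff_logSum_linear (i : Fin 2) : coeff (single i 1) (logSum g) = g.coeff 1 := by
  classical
  rw [logSum, map_add, PowerSeries.coeff_subst (PowerSeries.HasSubst.X 0),
    PowerSeries.coeff_subst (PowerSeries.HasSubst.X 1)]
  simp only [coeff_X_pow]
  fin_cases i
  · rw [finsum_eq_single _ 1, finsum_eq_zero_of_forall_eq_zero]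
    · simp
    · intro d; simp [single_eq_single_iff]
    · intro d hd; simp [single_eq_single_iff, Ne.symm hd]
  · rw [finsum_eq_zero_of_forall_eq_zero, finsum_eq_single _ 1]
    · simp
    · intro d hd; simp [single_eq_single_iff, Ne.symm hd]
    · intro d; simp [single_eq_single_iff]

include hg0 hg1 in
theorem coeff_addLogSeries_linear (i : Fin 2) :
    coeff (single i 1) (addLogSeries g hg1) = 1 := by
  classical
  rw [addLogSeries, PowerSeries.coeff_subst
    (PowerSeries.HasSubst.of_constantCoeff_zero (constantCoeff_logSum g hg0)),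
    finsum_eq_single _ 1]
  · rw [PowerSeries.coeff_one_substInvOfIsUnit, pow_one, coeff_logSum_linear]
    exact IsUnit.val_inv_mul _
  · intro d hd
    rcases Nat.lt_or_ge 1 d with h | h
    · rw [coeff_pow_of_degree_lt (constantCoeff_logSum g hg0) (by rw [degree_single]; exact h),
        smul_zero]
    · obtain rfl : d = 0 := by omega
      simp [PowerSeries.coeff_zero_eq_constantCoeff]

/-- The formal group law with logarithm `g`. -/
def ofLog : FormalGroup R where
  toPowerSeries := addLogSeries g hg1
  zero_constantCoeff := constantCoeff_addLogSeries g hg0 hg1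
  lin_coeff_X := coeff_addLogSeries_linear g hg0 hg1 0
  lin_coeff_Y := coeff_addLogSeries_linear g hg0 hg1 1
  assoc := by
    have hF := fun (a b : Fin 3) => constantCoeff_subst_eq_zero
      (a := ![X (R := R) a, X b]) HasSubst.X_X (by simp) (constantCoeff_addLogSeries g hg0 hg1)
    rw [subst_addLogSeries g hg0 hg1 ![(addLogSeries g hg1).subst ![X 0, X 1], X 2]
        (by simp [Fin.forall_fin_two, hF]),
      subst_addLogSeries g hg0 hg1 ![X 0, (addLogSeries g hg1).subst ![X 1, X 2]]
        (by simp [Fin.forall_fin_two, hF])]
    simp only [Matrix.cons_val_zero, Matrix.cons_val_one, Matrix.cons_val_fin_one]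
    rw [log_addLogSeries g hg0 hg1 _ (by simp [Fin.forall_fin_two]),
      log_addLogSeries g hg0 hg1 _ (by simp [Fin.forall_fin_two])]
    simp only [Matrix.cons_val_zero, Matrix.cons_val_one, Matrix.cons_val_fin_one, add_assoc]

instance : (ofLog g hg0 hg1).IsComm where
  comm := by
    show addLogSeries g hg1 = (addLogSeries g hg1).subst _
    rw [subst_addLogSeries g hg0 hg1 _ (by simp [Fin.forall_fin_two])]
    simp [addLogSeries, logSum, add_comm]

variable {K : Type*} [CommRing K] [Algebra ℚ K]

/-- The coefficients of the logarithm lie in the algebra of those of the law. -/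
theorem coeff_log_mem (g : PowerSeries K) (hg0 : g.constantCoeff = 0) (hg1 : g.coeff 1 = 1)
    (S : Subalgebra ℚ K) (M : ℕ)
    (hS : ∀ d, degree d ≤ M → (addLogSeries g hg1).coeff d ∈ S) :
    ∀ k ≤ M, g.coeff k ∈ S := by
  classical
  intro k
  induction k using Nat.strong_induction_on with
  | _ k ih =>
    intro hk
    rcases lt_or_ge k 2 with hk2 | hk2
    · interval_cases k
      · rw [PowerSeries.coeff_zero_eq_constantCoeff_apply, hg0]; exact zero_mem S
      · rw [hg1]; exact one_mem S
    set B := S.toSubring
    set π := QuotientAddGroup.mk' B.toAddSubgroup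
    set F := addLogSeries g hg1
    have hF0 : F.constantCoeff = 0 := constantCoeff_addLogSeries g hg0 hg1
    set E := expPair (k - 1) 1
    have h : coeff E (PowerSeries.subst F g) = 0 := by
      have hlog := log_addLogSeries g hg0 hg1 (fun s => X s) fun s => constantCoeff_X s
      rw [show (fun s => X s : Fin 2 → MvPowerSeries (Fin 2) K) = X from rfl, subst_self] at hlog
      rw [show PowerSeries.subst F g = logSum g from hlog]
      exact coeff_logSum_mixed g (by simp [E]; omega) (by simp [E])
    have hsub := PowerSeries.HasSubst.of_constantCoeff_zero hF0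
    have h' := congrArg π h
    rw [PowerSeries.coeff_subst hsub, map_zero, π.map_finsum
      (PowerSeries.coeff_subst_finite hsub _ _), finsum_eq_single _ k] at h'
    · have hlead := coeff_pow_leading F hF0 (coeff_addLogSeries_linear g hg0 hg1 0)
        (coeff_addLogSeries_linear g hg0 hg1 1) (k - 1) 1
      rw [show k - 1 + 1 = k by omega] at hlead
      rw [show E = expPair (k - 1) 1 from rfl, hlead, smul_eq_mul, QuotientAddGroup.mk'_apply,
        QuotientAddGroup.eq_zero_iff] at h'
      have hmem : g.coeff k * (k.choose (k - 1) : K) ∈ S := h'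
      rw [Nat.choose_symm (by omega : 1 ≤ k), Nat.choose_one_right] at hmem
      have := S.smul_mem hmem ((k : ℚ)⁻¹)
      rwa [Algebra.smul_def, mul_comm (g.coeff k), ← mul_assoc, ← map_natCast (algebraMap ℚ K),
        ← map_mul, inv_mul_cancel₀ (by exact_mod_cast (by omega : k ≠ 0)), map_one, one_mul] at this
    · intro l hl
      refine (QuotientAddGroup.eq_zero_iff _).2 ?_
      rcases lt_or_gt_of_ne hl with hl | hl
      · rw [smul_eq_mul]
        refine B.mul_mem (ih l hl (by omega)) ?_
        exact pow_mem (show F ∈ lowSubring B (M + 1) from fun d hd => hS d (by omega)) l E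
          (by rw [degree_expPair]; omega)
      · rw [coeff_pow_of_degree_lt hF0 (by rw [degree_expPair]; omega), smul_zero]
        exact zero_mem B

end Fermat.Agent.Lazard
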