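import Fermat.Agent.Lazard.Series
import Mathlib.Algebra.MvPolynomial.CommRing
import Mathlib.Algebra.MvPolynomial.Eval
import Mathlib.RingTheory.Ideal.Quotient.Operations

/-!
# The ring of Lazard and the universal formal group law
-/

set_option autoImplicit false

noncomputable section

open MvPowerSeries Finsupp

namespace Fermat.Agent.Lazard

section Generic

variable {R S : Type*} [CommRing R] [CommRing S]

theorem hasSubst_assocLeft {p : MvPowerSeries (Fin 2) R} (hp : p.constantCoeff = 0) :
    HasSubst (![p.subst ![X 0, X 1], X 2] : Fin 2 → MvPowerSeries (Fin 3) R) :=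
  HasSubst.cons_subst_zero_left 0 1 2 hp

/-- `p (p (X, Y), Z)`. -/
def assocLeft (p : MvPowerSeries (Fin 2) R) : MvPowerSeries (Fin 3) R :=
  p.subst ![p.subst ![X 0, X 1], X 2]

/-- `p (X, p (Y, Z))`. -/
def assocRight (p : MvPowerSeries (Fin 2) R) : MvPowerSeries (Fin 3) R :=
  p.subst ![X 0, p.subst ![X 1, X 2]]

/-- `p (Y, X)`. -/
def swapped (p : MvPowerSeries (Fin 2) R) : MvPowerSeries (Fin 2) R := p.subst ![X 1, X 0]

theorem map_vec {σ : Type*} (f : R →+* S) (q r : MvPowerSeries σ R) :
    (fun i => ((![q, r] : Fin 2 → MvPowerSeries σ R) i).map f) = ![q.map f, r.map f] := by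
  funext i; fin_cases i <;> rfl

theorem map_assocLeft (f : R →+* S) {p : MvPowerSeries (Fin 2) R} (hp : p.constantCoeff = 0) :
    (assocLeft p).map f = assocLeft (p.map f) := by
  rw [assocLeft, map_subst (HasSubst.cons_subst_zero_left 0 1 2 hp), map_vec,
    map_subst HasSubst.X_X, map_vec]
  simp [assocLeft]

theorem map_assocRight (f : R →+* S) {p : MvPowerSeries (Fin 2) R} (hp : p.constantCoeff = 0) :
    (assocRight p).map f = assocRight (p.map f) := by
  rw [assocRight, map_subst (HasSubst.cons_subst_zero_right 0 1 2 hp), map_vec,
    map_subst HasSubst.X_X, map_vec]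
  simp [assocRight]

theorem map_swapped (f : R →+* S) (p : MvPowerSeries (Fin 2) R) :
    (swapped p).map f = swapped (p.map f) := by
  rw [swapped, map_subst HasSubst.X_X, map_vec]
  simp [swapped]

end Generic

/-- The polynomial ring in all coefficients. -/
abbrev CoeffRing : Type := MvPolynomial (Fin 2 →₀ ℕ) ℤ

/-- The generic series `X + Y + ...`. -/
def genericSeries : MvPowerSeries (Fin 2) CoeffRing :=
  fun d => if d = 0 then 0 else if degree d = 1 then 1 else MvPolynomial.X d

theorem coeff_genericSeries (d : Fin 2 →₀ ℕ) : coeff d genericSeries =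
    if d = 0 then 0 else if degree d = 1 then 1 else MvPolynomial.X d := rfl

theorem constantCoeff_genericSeries : genericSeries.constantCoeff = 0 := by
  rw [← coeff_zero_eq_constantCoeff_apply, coeff_genericSeries, if_pos rfl]

/-- The defining relations. -/
def relations : Set CoeffRing :=
  Set.range (fun d => MvPolynomial.X d - coeff d genericSeries) ∪
    Set.range (fun e => coeff e (assocLeft genericSeries) - coeff e (assocRight genericSeries)) ∪
      Set.range (fun d => coeff d genericSeries - coeff d (swapped genericSeries))

/-- The ring of Lazard. -/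
abbrev LazardRing : Type := CoeffRing ⧸ Ideal.span relations

theorem mk_relation {r s : CoeffRing} (h : r - s ∈ relations) :
    Ideal.Quotient.mk (Ideal.span relations) r = Ideal.Quotient.mk (Ideal.span relations) s :=
  Ideal.Quotient.eq.2 (Ideal.subset_span h)

/-- The universal formal group law. -/
def universalLaw : FormalGroup LazardRing where
  toPowerSeries := genericSeries.map (Ideal.Quotient.mk _)
  zero_constantCoeff := by simp [constantCoeff_map, constantCoeff_genericSeries]
  lin_coeff_X := by simp [coeff_genericSeries, degree_single]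
  lin_coeff_Y := by simp [coeff_genericSeries, degree_single]
  assoc := by
    show assocLeft (genericSeries.map _) = assocRight (genericSeries.map _)
    rw [← map_assocLeft _ constantCoeff_genericSeries,
      ← map_assocRight _ constantCoeff_genericSeries]
    ext e
    rw [coeff_map, coeff_map]
    exact mk_relation (Or.inl (Or.inr ⟨e, rfl⟩))

instance : universalLaw.IsComm where
  comm := by
    show genericSeries.map _ = swapped (genericSeries.map _)
    rw [← map_swapped]
    ext e
    rw [coeff_map, coeff_map]
    exact mk_relation (Or.inr ⟨e, rfl⟩)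

theorem coeff_universalLaw (d : Fin 2 →₀ ℕ) :
    universalLaw.toPowerSeries.coeff d = Ideal.Quotient.mk _ (MvPolynomial.X d) := by
  show coeff d (genericSeries.map _) = _
  rw [coeff_map]
  exact (mk_relation (Or.inl (Or.inl ⟨d, rfl⟩))).symm

/-- **The universal property** of the ring of Lazard. -/
theorem universalLaw_universal {R : Type*} [CommRing R] (F : FormalGroup R) [F.IsComm] :
    ∃! φ : LazardRing →+* R, universalLaw.map φ = F := by
  classical
  set φ₀ : CoeffRing →+* R :=
    MvPolynomial.eval₂Hom (Int.castRingHom R) fun d => F.toPowerSeries.coeff d with hφ₀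
  have hgen : genericSeries.map φ₀ = F.toPowerSeries := by
    ext d
    rw [coeff_map, coeff_genericSeries]
    split_ifs with h0 h1
    · rw [map_zero, h0, coeff_zero_eq_constantCoeff_apply, F.zero_constantCoeff]
    · rw [map_one]
      obtain ⟨i, hi⟩ : d ∈ Set.range fun i : Fin 2 => single i 1 := by
        rw [show Set.range (fun i : Fin 2 => single i 1) = {d | degree d = 1} from
          Finsupp.range_single_one]
        exact h1
      subst hi
      fin_cases i
      exacts [F.lin_coeff_X.symm, F.lin_coeff_Y.symm]
    · simp [hφ₀]
  have hker : ∀ r ∈ Ideal.span relations, φ₀ r = 0 := by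
    intro r hr
    refine RingHom.mem_ker.1 ((Ideal.span_le (I := RingHom.ker φ₀)).2 ?_ hr)
    rintro _ ((⟨d, rfl⟩ | ⟨e, rfl⟩) | ⟨d, rfl⟩)
    · rw [SetLike.mem_coe, RingHom.mem_ker, map_sub, ← coeff_map, hgen, sub_eq_zero]
      simp [hφ₀]
    · rw [SetLike.mem_coe, RingHom.mem_ker, map_sub, ← coeff_map, ← coeff_map,
        map_assocLeft _ constantCoeff_genericSeries, map_assocRight _ constantCoeff_genericSeries,
        hgen, sub_eq_zero]
      exact congrArg (coeff e) F.assoc
    · rw [SetLike.mem_coe, RingHom.mem_ker, map_sub, ← coeff_map, ← coeff_map, map_swapped, hgen,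
        sub_eq_zero]
      exact congrArg (coeff d) FormalGroup.IsComm.comm
  refine ⟨Ideal.Quotient.lift _ φ₀ hker, FormalGroup.ext ?_, fun φ hφ => ?_⟩
  · show (genericSeries.map (Ideal.Quotient.mk _)).map _ = _
    rw [← hgen]
    rfl
  · refine Ideal.Quotient.ringHom_ext (MvPolynomial.ringHom_ext (fun r => by simp) fun d => ?_)
    rw [RingHom.comp_apply, RingHom.comp_apply, Ideal.Quotient.lift_mk, ← coeff_universalLaw,
      ← coeff_map, ← FormalGroup.map_toPowerSeries, hφ]
    simp [hφ₀]

/-- Chosen polynomial generators of the ring of Lazard. -/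
theorem exists_generators : ∃ t : ℕ → LazardRing, Subring.closure (Set.range t) = ⊤ ∧
    ∀ n, ∀ d, degree d ≤ n + 1 →
      universalLaw.toPowerSeries.coeff d ∈ Subring.closure (t '' {m | m < n}) := by
  choose t ht using fun m : ℕ => exists_extra_generator universalLaw
    (Subring.closure ((fun d => universalLaw.toPowerSeries.coeff d) '' {d | degree d < m + 2}))
    (m + 2) (by omega) fun d hd => Subring.subset_closure ⟨d, hd, rfl⟩
  have key : ∀ n, ∀ d, degree d ≤ n + 1 →
      universalLaw.toPowerSeries.coeff d ∈ Subring.closure (t '' {m | m < n}) := by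
    intro n
    induction n with
    | zero =>
      intro d hd
      show coeff d (genericSeries.map _) ∈ _
      rw [coeff_map, coeff_genericSeries]
      split_ifs with h0 h1
      · rw [map_zero]; exact zero_mem _
      · rw [map_one]; exact one_mem _
      · exact absurd ((Finsupp.degree_eq_zero_iff d).1 (by omega)) h0
    | succ n ih =>
      intro d hd
      have hmono : Subring.closure (t '' {m | m < n}) ≤ Subring.closure (t '' {m | m < n + 1}) :=
        Subring.closure_mono (Set.image_mono fun m (hm : m < n) => Nat.lt_succ_of_lt hm)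
      rcases Nat.lt_or_ge (degree d) (n + 2) with h | h
      · exact hmono (ih d (by omega))
      · refine ht n (Subring.closure (t '' {m | m < n + 1})) ?_
          (Subring.subset_closure ⟨n, Nat.lt_succ_self n, rfl⟩) d (by omega)
        rw [Subring.closure_le]
        rintro _ ⟨e, he, rfl⟩
        exact hmono (ih e (Nat.le_of_lt_succ he))
  refine ⟨t, eq_top_iff.2 fun r hr => ?_, key⟩
  clear hr
  obtain ⟨q, rfl⟩ := Ideal.Quotient.mk_surjective r
  induction q using MvPolynomial.induction_on with
  | C a => simp
  | add p q hp hq => rw [map_add]; exact add_mem hp hq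
  | mul_X p d hp =>
    rw [map_mul, ← coeff_universalLaw]
    exact mul_mem hp (Subring.closure_mono (Set.image_subset_range _ _)
      (key (degree d) d (Nat.le_succ _)))

end Fermat.Agent.Lazard
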