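import Mathlib.Data.Nat.Choose.Lucas
import Mathlib.GroupTheory.OrderOfElement
import Mathlib.RingTheory.Finiteness.Nakayama
import Mathlib.RingTheory.PrincipalIdealDomain
import Mathlib.RingTheory.Int.Basic
import Mathlib.Algebra.Module.ZMod
import Mathlib.Tactic.LinearCombination

/-!
# The lemma of Lazard on symmetric cocycles

A symmetric two-cocycle of degree `n`, with coefficients in any abelian group, is a multiple of
`((x + y) ^ n - x ^ n - y ^ n) / d`, where `d` is the greatest common divisor of the middle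
binomial coefficients. The multiple is found from a Bezout relation; uniqueness is reduced to
groups killed by a prime `p`, where a cocycle is determined by a single pivot coefficient.
-/

set_option autoImplicit false

noncomputable section

open Finset

namespace Fermat.Agent.Lazard

/-- The middle coefficients of a symmetric two-cocycle of degree `n`. -/
structure IsSymmCocycle {A : Type*} [AddCommGroup A] (n : ℕ) (c : ℕ → A) : Prop where
  symm : ∀ i, 1 ≤ i → i < n → c (n - i) = c i
  rel : ∀ i j k, 1 ≤ i → 1 ≤ j → 1 ≤ k → i + j + k = n →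
    (i + j).choose i • c (i + j) = (j + k).choose j • c i

variable {A : Type*} [AddCommGroup A] {n p : ℕ} {c : ℕ → A}

theorem IsSymmCocycle.map (hc : IsSymmCocycle n c) {B : Type*} [AddCommGroup B] (f : A →+ B) :
    IsSymmCocycle n fun i => f (c i) where
  symm i hi hin := congrArg f (hc.symm i hi hin)
  rel i j k hi hj hk h := by rw [← map_nsmul, ← map_nsmul, hc.rel i j k hi hj hk h]

theorem IsSymmCocycle.sub_zsmul (hc : IsSymmCocycle n c) {u : ℕ → ℤ} (hu : IsSymmCocycle n u)
    (a : A) : IsSymmCocycle n fun i => c i - u i • a where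
  symm i hi hin := by simp only [hc.symm i hi hin, hu.symm i hi hin]
  rel i j k hi hj hk h := by
    simp only [smul_sub, ← smul_assoc, hc.rel i j k hi hj hk h, hu.rel i j k hi hj hk h]

/-- Congruent multiples agree in a group killed by `p`. -/
theorem nsmul_eq_of_modEq (hA : ∀ a : A, p • a = 0) {r s : ℕ} (h : r ≡ s [MOD p]) (a : A) :
    r • a = s • a := by
  rw [← Nat.mod_add_div r p, ← Nat.mod_add_div s p, h, add_nsmul, add_nsmul, mul_nsmul',
    mul_nsmul', hA, hA]

/-- The coefficient which determines a cocycle modulo `p`. -/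
def pivot (p : ℕ) : ℕ → ℕ
  | n => if _h : 1 < p ∧ p < n ∧ p ∣ n then p * pivot p (n / p) else 1
  decreasing_by exact Nat.div_lt_self (by omega) _h.1

theorem IsSymmCocycle.eq_zero_of_pivot [hp : Fact p.Prime] :
    ∀ (n : ℕ), 2 ≤ n → ∀ c : ℕ → A, IsSymmCocycle n c → (∀ a : A, p • a = 0) →
      c (pivot p n) = 0 → ∀ i, 1 ≤ i → i < n → c i = 0 := by
  intro n
  induction n using Nat.strong_induction_on with
  | _ n ih =>
    intro hn c hc hA h0 i hi hin
    have hp2 := hp.out.two_le
    rw [pivot] at h0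
    -- coefficients prime to `p` follow from the first one
    have hprime : c 1 = 0 → ∀ i, 1 ≤ i → i < n → ¬p ∣ i → c i = 0 := by
      intro h1 i hi hin hpi
      rcases eq_or_lt_of_le hi with rfl | hi2
      · exact h1
      have h := hc.rel 1 (i - 1) (n - i) le_rfl (by omega) (by omega) (by omega)
      rw [h1, smul_zero, Nat.add_sub_cancel' hi, Nat.choose_one_right] at h
      rw [← AddMonoid.addOrderOf_eq_one_iff, ← Nat.dvd_one,
        ← Nat.Coprime.gcd_eq_one ((Nat.Prime.coprime_iff_not_dvd hp.out).2 hpi)]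
      exact Nat.dvd_gcd (addOrderOf_dvd_of_nsmul_eq_zero (hA _))
        (addOrderOf_dvd_of_nsmul_eq_zero h)
    by_cases hcase : 1 < p ∧ p < n ∧ p ∣ n
    · rw [dif_pos hcase] at h0
      obtain ⟨-, hpn, m, rfl⟩ := hcase
      rw [Nat.mul_div_cancel_left m hp.out.pos] at h0
      have hm : 2 ≤ m := by
        by_contra hm
        interval_cases m <;> omega
      have h1 : c 1 = 0 := by
        have h := hc.rel 1 (p - 1) (p * m - p) le_rfl (by omega) (by omega) (by omega)
        rw [Nat.add_sub_cancel' hp.out.pos, Nat.choose_one_right, hA] at h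
        have hmod : (p - 1 + (p * m - p)).choose (p - 1) ≡ 1 [MOD p] := by
          refine Choose.choose_modEq_choose_mod_mul_choose_div_nat.trans ?_
          rw [show p - 1 + (p * m - p) = p - 1 + p * (m - 1) by rw [Nat.mul_sub, mul_one],
            Nat.add_mul_mod_self_left, Nat.mod_eq_of_lt (by omega : p - 1 < p),
            Nat.div_eq_of_lt (by omega : p - 1 < p), Nat.choose_self, Nat.choose_zero_right]
        rw [nsmul_eq_of_modEq hA hmod, one_nsmul] at h
        exact h.symm
      by_cases hpi : p ∣ i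
      swap
      · exact hprime h1 i hi hin hpi
      obtain ⟨l, rfl⟩ := hpi
      have hmul : ∀ a, 1 ≤ a → 1 ≤ p * a := fun a ha => Nat.one_le_iff_ne_zero.2
        (Nat.mul_ne_zero hp.out.ne_zero (by omega))
      have hchoose : ∀ a b, (p * a).choose (p * b) ≡ a.choose b [MOD p] := fun a b => by
        refine Choose.choose_modEq_choose_mod_mul_choose_div_nat.trans ?_
        rw [Nat.mul_mod_right, Nat.mul_mod_right, Nat.choose_zero_right, one_mul,
          Nat.mul_div_cancel_left _ hp.out.pos, Nat.mul_div_cancel_left _ hp.out.pos]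
      have hc' : IsSymmCocycle m fun l => c (p * l) := by
        refine ⟨fun a ha ham => ?_, fun a b d ha hb hd h => ?_⟩
        · rw [Nat.mul_sub]
          exact hc.symm _ (hmul a ha) ((Nat.mul_lt_mul_left hp.out.pos).2 ham)
        · rw [← nsmul_eq_of_modEq hA (hchoose (a + b) a),
            ← nsmul_eq_of_modEq hA (hchoose (b + d) b), mul_add, mul_add]
          exact hc.rel _ _ _ (hmul a ha) (hmul b hb) (hmul d hd) (by rw [← mul_add, ← mul_add, h])
      exact ih m (lt_mul_left (by omega) hp.out.one_lt) hm _ hc' hA h0 l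
        (Nat.pos_of_mul_pos_left hi) (Nat.lt_of_mul_lt_mul_left hin)
    · rw [dif_neg hcase] at h0
      by_cases hpi : p ∣ i
      swap
      · exact hprime h0 i hi hin hpi
      rw [← hc.symm i hi hin]
      refine hprime h0 _ (by omega) (by omega) fun h => hcase ⟨hp.out.one_lt, ?_, ?_⟩
      · exact lt_of_le_of_lt (Nat.le_of_dvd hi hpi) hin
      · have := dvd_add hpi h
        rwa [Nat.add_sub_cancel' hin.le] at this

/-- **Lazard's lemma**: the symmetric cocycles of degree `n` are the multiples of one of them. -/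
theorem exists_generator (n : ℕ) (hn : 2 ≤ n) :
    ∃ u : ℕ → ℤ, IsSymmCocycle n u ∧ ∀ {A : Type*} [AddCommGroup A] (c : ℕ → A),
      IsSymmCocycle n c → ∃ a : A, ∀ i, 1 ≤ i → i < n → c i = u i • a := by
  classical
  obtain ⟨d, hd⟩ := IsPrincipalIdealRing.principal
    (Ideal.span (Set.range fun i : ↥(Finset.Ioo 0 n) => (n.choose i : ℤ)))
  rw [Ideal.submodule_span_eq] at hd
  have hmem : ∀ i, 1 ≤ i → i < n → d ∣ (n.choose i : ℤ) := fun i hi hin =>
    Ideal.mem_span_singleton.1 (hd ▸ Ideal.subset_span ⟨⟨i, Finset.mem_Ioo.2 ⟨hi, hin⟩⟩, rfl⟩)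
  have hd0 : d ≠ 0 := fun h => by
    have h1 := hmem 1 le_rfl (by omega)
    rw [h, Nat.choose_one_right, zero_dvd_iff] at h1
    omega
  set u : ℕ → ℤ := fun i => (n.choose i : ℤ) / d
  have hdu : ∀ i, 1 ≤ i → i < n → d * u i = n.choose i := fun i hi hin =>
    Int.mul_ediv_cancel' (hmem i hi hin)
  have hu : IsSymmCocycle n u := by
    refine ⟨fun i hi hin => by simp only [u, Nat.choose_symm hin.le], fun i j k hi hj hk h => ?_⟩
    refine mul_left_cancel₀ hd0 ?_
    rw [nsmul_eq_mul, nsmul_eq_mul, mul_left_comm, hdu _ (by omega) (by omega), mul_left_comm,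
      hdu _ hi (by omega), mul_comm, ← Nat.cast_mul, Nat.choose_mul (Nat.le_add_right i j),
      mul_comm, Nat.cast_mul, show n - i = j + k by omega, show i + j - i = j by omega]
  obtain ⟨lam, hlam⟩ := (Ideal.mem_span_range_iff_exists_fun).1
    (hd.ge (Ideal.mem_span_singleton_self d))
  have hone : ∑ i : ↥(Finset.Ioo 0 n), lam i * u i = 1 := by
    refine mul_left_cancel₀ hd0 ?_
    rw [Finset.mul_sum, mul_one]
    refine (Finset.sum_congr rfl fun i _ => ?_).trans hlam
    rw [mul_left_comm, hdu _ (Finset.mem_Ioo.1 i.2).1 (Finset.mem_Ioo.1 i.2).2]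
  refine ⟨u, hu, fun {A} _ c hc => ?_⟩
  set a : A := ∑ i : ↥(Finset.Ioo 0 n), lam i • c i
  refine ⟨a, fun i hi hin => sub_eq_zero.1 ?_⟩
  set c' : ℕ → A := fun i => c i - u i • a
  have hc' : IsSymmCocycle n c' := hc.sub_zsmul hu a
  have hzero : ∑ i : ↥(Finset.Ioo 0 n), lam i • c' i = 0 := by
    simp only [c', smul_sub, Finset.sum_sub_distrib, smul_smul, ← Finset.sum_smul, hone, one_smul]
    exact sub_self a
  set N := Submodule.span ℤ (c' '' ↑(Finset.Ioo 0 n)) with hN
  have hmemN : ∀ i, 1 ≤ i → i < n → c' i ∈ N := fun i hi hin =>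
    Submodule.subset_span ⟨i, Finset.mem_coe.2 (Finset.mem_Ioo.2 ⟨hi, hin⟩), rfl⟩
  have hfg : N.FG := Submodule.fg_span ((Finset.finite_toSet _).image _)
  -- the coefficients are divisible by every prime inside their span
  have hdiv : ∀ p : ℕ, p.Prime → N ≤ Ideal.span {(p : ℤ)} • N := by
    intro p hp
    have := Fact.mk hp
    rw [hN, Submodule.span_le]
    rintro _ ⟨i, hi, rfl⟩
    obtain ⟨hi, hin⟩ := Finset.mem_Ioo.1 (Finset.mem_coe.1 hi)
    rw [← hN]
    set M := Ideal.span {(p : ℤ)} • N
    let q : A →+ A ⧸ M.toAddSubgroup := QuotientAddGroup.mk' _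
    -- the image of the coefficients is killed by `p`
    have hq : ∀ x ∈ N, p • q x = 0 := fun x hx => by
      rw [← map_nsmul, QuotientAddGroup.mk'_apply, QuotientAddGroup.eq_zero_iff]
      rw [Submodule.mem_toAddSubgroup, ← natCast_zsmul]
      exact Submodule.smul_mem_smul (Ideal.mem_span_singleton_self _) hx
    let B := (N.toAddSubgroup.map q)
    have hB : ∀ b : B, p • b = 0 := by
      rintro ⟨_, x, hx, rfl⟩
      exact Subtype.ext (hq x hx)
    let c'' : ℕ → B := fun j =>
      if h : 1 ≤ j ∧ j < n then ⟨q (c' j), _, hmemN j h.1 h.2, rfl⟩ else 0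
    have hval : ∀ j, 1 ≤ j → j < n → (c'' j : A ⧸ M.toAddSubgroup) = q (c' j) := fun j h h' => by
      simp [c'', h, h']
    have hc'' : IsSymmCocycle n c'' := by
      refine ⟨fun j hj hjn => Subtype.ext ?_, fun r s t hr hs ht h => Subtype.ext ?_⟩
      · rw [hval _ (by omega) (by omega), hval _ hj hjn]
        exact congrArg q (hc'.symm j hj hjn)
      · rw [AddSubgroup.coe_nsmul, AddSubgroup.coe_nsmul, hval _ (by omega) (by omega),
          hval _ hr (by omega)]
        exact (hc'.map q).rel r s t hr hs ht h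
    set e := pivot p n
    -- the pivot of `u` is prime to `p`
    have hue : ¬(p : ℤ) ∣ u e := fun h => by
      have hz := IsSymmCocycle.eq_zero_of_pivot (A := ZMod p) n hn _
        (hu.map (Int.castRingHom (ZMod p)).toAddMonoidHom) (fun a => by simp [nsmul_eq_mul])
        ((ZMod.intCast_zmod_eq_zero_iff_dvd _ _).2 h)
      have h1 := congrArg (fun z : ℤ => (z : ZMod p)) hone
      simp only [Int.cast_sum, Int.cast_mul, Int.cast_one] at h1
      refine zero_ne_one ((Finset.sum_eq_zero fun j _ => ?_).symm.trans h1)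
      exact mul_eq_zero_of_right _ (hz j (Finset.mem_Ioo.1 j.2).1 (Finset.mem_Ioo.1 j.2).2)
    obtain ⟨r, s, hrs⟩ := ((Nat.prime_iff_prime_int.1 hp).coprime_iff_not_dvd.2 hue).symm
    set b : B := r • c'' e
    have hall := IsSymmCocycle.eq_zero_of_pivot n hn _ (hc''.sub_zsmul hu b) hB (by
      rw [sub_eq_zero, smul_smul, mul_comm, show r * u e = 1 + -s * p by linear_combination hrs,
        add_smul, one_smul, mul_smul, natCast_zsmul, hB, smul_zero, add_zero])
    have hb : b = 0 := by
      have h0 : ∑ j : ↥(Finset.Ioo 0 n), lam j • c'' j = 0 := by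
        refine Subtype.ext ?_
        rw [AddSubgroup.val_finsetSum, AddSubgroup.coe_zero, ← map_zero q, ← hzero, map_sum]
        refine Finset.sum_congr rfl fun j _ => ?_
        rw [AddSubgroup.coe_zsmul, map_zsmul,
          hval _ (Finset.mem_Ioo.1 j.2).1 (Finset.mem_Ioo.1 j.2).2]
      rw [← one_smul ℤ b, ← hone, Finset.sum_smul]
      refine (Finset.sum_congr rfl fun j _ => ?_).trans h0
      rw [mul_smul, sub_eq_zero.1 (hall j (Finset.mem_Ioo.1 j.2).1 (Finset.mem_Ioo.1 j.2).2)]
    have h1 := sub_eq_zero.1 (hall i hi hin)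
    rw [hb, smul_zero] at h1
    have h2 : q (c' i) = 0 := by rw [← hval i hi hin, h1]; rfl
    rwa [QuotientAddGroup.mk'_apply, QuotientAddGroup.eq_zero_iff] at h2
  -- hence they vanish
  have hann : N.annihilator = ⊤ := by
    obtain ⟨g, hg⟩ := IsPrincipalIdealRing.principal N.annihilator
    rw [Ideal.submodule_span_eq] at hg
    rw [hg, Ideal.span_singleton_eq_top, Int.isUnit_iff_natAbs_eq]
    by_contra hne
    obtain ⟨p, hp, hpg⟩ := Nat.exists_prime_and_dvd hne
    obtain ⟨r, hr, hrN⟩ := Submodule.exists_sub_one_mem_and_smul_eq_zero_of_fg_of_le_smul _ N hfg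
      (hdiv p hp)
    have h1 : g ∣ r := Ideal.mem_span_singleton.1 (hg ▸ Submodule.mem_annihilator.2 hrN)
    have h2 := dvd_sub ((Int.natCast_dvd.2 hpg).trans h1) (Ideal.mem_span_singleton.1 hr)
    rw [sub_sub_cancel] at h2
    exact hp.not_dvd_one (by exact_mod_cast h2)
  have h := Submodule.mem_annihilator.1 (hann ▸ Submodule.mem_top : (1 : ℤ) ∈ N.annihilator)
  simpa [c'] using h _ (hmemN i hi hin)

end Fermat.Agent.Lazard
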