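import Fermat.Agent.Lazard.Cocycle
import Mathlib.RingTheory.FormalGroup.Basic
import Mathlib.RingTheory.MvPowerSeries.Order
import Mathlib.RingTheory.MvPowerSeries.Rename
import Mathlib.GroupTheory.QuotientGroup.Basic

/-!
# Coefficients of formal group laws modulo the coefficients of lower degree
-/

set_option autoImplicit false

noncomputable section

open MvPowerSeries Finsupp

namespace Fermat.Agent.Lazard

/-- The exponent of `X ^ i Y ^ j`. -/
def expPair (i j : ℕ) : Fin 2 →₀ ℕ := single 0 i + single 1 j

@[simp] theorem expPair_zero (i j : ℕ) : expPair i j 0 = i := by simp [expPair]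

@[simp] theorem expPair_one (i j : ℕ) : expPair i j 1 = j := by simp [expPair]

theorem expPair_eta (d : Fin 2 →₀ ℕ) : expPair (d 0) (d 1) = d := by
  ext s; fin_cases s <;> simp

theorem degree_expPair (i j : ℕ) : degree (expPair i j) = i + j := by
  simp [expPair, map_add]

variable {R : Type*} [CommRing R] {σ : Type*}

/-- The series with coefficients of degree less than `n` in a subring. -/
def lowSubring (B : Subring R) (n : ℕ) : Subring (MvPowerSeries σ R) where
  carrier := {p | ∀ e, degree e < n → coeff e p ∈ B}
  mul_mem' := fun {p q} hp hq e he => by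
    classical
    rw [coeff_mul]
    refine Subring.sum_mem _ fun x hx => B.mul_mem (hp _ ?_) (hq _ ?_)
    all_goals
      rw [Finset.HasAntidiagonal.mem_antidiagonal] at hx
      have := congrArg degree hx
      rw [map_add] at this
      omega
  one_mem' := fun e _ => by
    classical
    rw [coeff_one]; split_ifs
    exacts [B.one_mem, B.zero_mem]
  add_mem' := fun {p q} hp hq e he => by rw [map_add]; exact B.add_mem (hp e he) (hq e he)
  zero_mem' := fun e _ => by rw [map_zero]; exact B.zero_mem
  neg_mem' := fun {p} hp e he => by rw [map_neg]; exact B.neg_mem (hp e he)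

theorem coeff_pow_of_degree_lt {f : MvPowerSeries σ R} (hf : f.constantCoeff = 0) {d : ℕ}
    {e : σ →₀ ℕ} (he : degree e < d) : coeff e (f ^ d) = 0 :=
  coeff_of_lt_order (lt_of_lt_of_le (by exact_mod_cast he)
    (le_order_pow_of_constantCoeff_eq_zero d hf))

/-- The leading part of the powers of `X + Y + ...`. -/
theorem coeff_pow_leading (f : MvPowerSeries (Fin 2) R) (h0 : f.constantCoeff = 0)
    (hX : f.coeff (single 0 1) = 1) (hY : f.coeff (single 1 1) = 1) (i j : ℕ) :
    coeff (expPair i j) (f ^ (i + j)) = ((i + j).choose i : R) := by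
  classical
  set q : MvPowerSeries (Fin 2) R := X 0 + X 1 with hq
  have hq0 : q.constantCoeff = 0 := by simp [hq]
  have hsub : ((2 : ℕ) : ℕ∞) ≤ (f - q).order := nat_le_order fun d hd => by
    rw [← expPair_eta d, degree_expPair] at hd
    rcases (by omega : d 0 = 0 ∧ d 1 = 0 ∨ d 0 = 1 ∧ d 1 = 0 ∨ d 0 = 0 ∧ d 1 = 1) with h | h | h
    · rw [← expPair_eta d, h.1, h.2]
      simp [expPair, h0, hq0]
    · rw [← expPair_eta d, h.1, h.2]
      simp [expPair, hX, hq, coeff_index_single_X]
    · rw [← expPair_eta d, h.1, h.2]
      simp [expPair, hY, hq, coeff_index_single_X]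
  have hord : ∀ d : ℕ, ((d + 1 : ℕ) : ℕ∞) ≤ (f ^ d - q ^ d).order := by
    intro d
    induction d with
    | zero => simp
    | succ d ih =>
      rw [show f ^ (d + 1) - q ^ (d + 1) = f ^ d * (f - q) + (f ^ d - q ^ d) * q by ring]
      refine le_trans (le_min ?_ ?_) min_order_le_add
      · refine le_trans ?_ le_order_mul
        rw [show d + 1 + 1 = d + 2 from rfl, Nat.cast_add]
        exact add_le_add (le_order_pow_of_constantCoeff_eq_zero d h0) hsub
      · refine le_trans ?_ le_order_mul
        rw [Nat.cast_add (d + 1) 1, Nat.cast_one]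
        exact add_le_add ih (one_le_order_iff_constCoeff_eq_zero.2 hq0)
  have hlt : ((degree (expPair i j) : ℕ) : ℕ∞) < ((i + j + 1 : ℕ) : ℕ∞) := by
    rw [degree_expPair]; exact_mod_cast Nat.lt_succ_self (i + j)
  have h := coeff_of_lt_order (lt_of_lt_of_le hlt (hord (i + j)))
  rw [map_sub, sub_eq_zero] at h
  rw [h, hq, add_pow, map_sum, Finset.sum_eq_single i]
  · rw [X_pow_eq, X_pow_eq, monomial_mul_monomial, Nat.add_sub_cancel_left, 
      ← map_natCast (C (σ := Fin 2)), coeff_mul_C, coeff_monomial, if_pos (by rfl), mul_one,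
      one_mul]
  · intro b hb hbi
    rw [X_pow_eq, X_pow_eq, monomial_mul_monomial, ← map_natCast (C (σ := Fin 2)), coeff_mul_C,
      coeff_monomial, if_neg, zero_mul]
    intro h
    have h1 := congrArg (fun e : Fin 2 →₀ ℕ => e 0) h
    simp [expPair] at h1
    exact hbi h1.symm
  · intro h
    exact absurd (Finset.mem_range.2 (by omega)) h

/-- The coefficient of `X ^ i Y ^ j Z ^ k` in `F(F(X, Y), Z)` modulo coefficients of lower
degree. -/
theorem coeff_assoc_mod (F : FormalGroup R) (B : Subring R) (n : ℕ)
    (hB : ∀ d, degree d < n → F.toPowerSeries.coeff d ∈ B) (a b c : Fin 3) (hab : a ≠ b)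
    (hac : a ≠ c) (hbc : b ≠ c) (i j k : ℕ) (hk : 1 ≤ k) (hn : i + j + k = n) :
    QuotientAddGroup.mk' B.toAddSubgroup (coeff (single a i + single b j + single c k)
      (F.toPowerSeries.subst ![F.toPowerSeries.subst ![X a, X b], X c] : MvPowerSeries (Fin 3) R))
      = (i + j).choose i •
        QuotientAddGroup.mk' B.toAddSubgroup (F.toPowerSeries.coeff (expPair (i + j) k)) := by
  classical
  set π := QuotientAddGroup.mk' B.toAddSubgroup
  have hπ : ∀ r, r ∈ B → π r = 0 := fun r hr => (QuotientAddGroup.eq_zero_iff r).2 hr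
  let em : Fin 2 ↪ Fin 3 := ⟨![a, b], fun s s' h => by
    fin_cases s <;> fin_cases s' <;> simp_all⟩
  set G := rename em F.toPowerSeries
  have hG : F.toPowerSeries.subst ![X a, X b] = G := by
    rw [show G = _ from rename_eq_subst em F.toPowerSeries,
      show (X ∘ em : Fin 2 → MvPowerSeries (Fin 3) R) =
      ![X a, X b] from funext fun s => by fin_cases s <;> rfl]
  have hsubst := HasSubst.cons_subst_zero_left (σ := Fin 3) a b c F.zero_constantCoeff
  rw [coeff_subst hsubst, π.map_finsum (coeff_subst_finite hsubst _ _), hG]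
  have hterm : ∀ (l m : ℕ), coeff (single a i + single b j + single c k) (G ^ l * X c ^ m) =
      if m = k then coeff (expPair i j) (F.toPowerSeries ^ l) else 0 := by
    intro l m
    rw [X_pow_eq, coeff_mul_monomial, mul_one, ← map_pow (rename em)]
    rcases lt_trichotomy m k with h | rfl | h
    · rw [if_neg h.ne, if_pos (single_le_iff.2 (by simp [hac.symm, hbc.symm]; omega))]
      refine coeff_rename_eq_zero _ _ ?_
      rintro ⟨z, hz⟩
      have h1 := congrArg (fun e : Fin 3 →₀ ℕ => e c) hz
      rw [Finsupp.mapDomain_of_notMem_range _ _ (by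
        rintro ⟨s, hs⟩; fin_cases s <;> simp_all [em])] at h1
      simp [hac.symm, hbc.symm] at h1
      omega
    · rw [if_pos rfl, if_pos le_add_self, add_tsub_cancel_right,
        show single a i + single b j = embDomain em (expPair i j) by
          simp [expPair, embDomain_eq_mapDomain, mapDomain_add, em], coeff_embDomain_rename]
    · rw [if_neg h.ne', if_neg]
      intro hle
      have h1 := hle c
      simp [hac.symm, hbc.symm] at h1
      omega
  have hval : ∀ d : Fin 2 →₀ ℕ, F.toPowerSeries.coeff d •
      coeff (single a i + single b j + single c k)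
        (d.prod fun s e => (![G, X c] : Fin 2 → MvPowerSeries (Fin 3) R) s ^ e) =
      F.toPowerSeries.coeff d *
        if d 1 = k then coeff (expPair i j) (F.toPowerSeries ^ d 0) else 0 := fun d => by
    rw [Finsupp.prod_fintype _ _ (fun s => pow_zero _), Fin.prod_univ_two, ← hterm]
    rfl
  simp only [hval]
  rw [finsum_eq_single _ (expPair (i + j) k)]
  · rw [expPair_one, if_pos rfl, expPair_zero,
      coeff_pow_leading _ F.zero_constantCoeff F.lin_coeff_X F.lin_coeff_Y, ← map_nsmul,
      nsmul_eq_mul, mul_comm]
  · intro d hd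
    split_ifs with hd1
    · rcases lt_trichotomy (d 0) (i + j) with h | h | h
      · refine hπ _ (B.mul_mem (hB _ ?_) ?_)
        · rw [← expPair_eta d, degree_expPair]; omega
        · exact pow_mem (show F.toPowerSeries ∈ lowSubring B n from hB) _ _
            (by rw [degree_expPair]; omega)
      · exact absurd (by rw [← expPair_eta d, h, hd1]) hd
      · rw [coeff_pow_of_degree_lt F.zero_constantCoeff (by rw [degree_expPair]; exact h),
          mul_zero, map_zero]
    · rw [mul_zero, map_zero]

variable (F : FormalGroup R) [hF : F.IsComm]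

include hF in
theorem coeff_symm (i j : ℕ) :
    F.toPowerSeries.coeff (expPair i j) = F.toPowerSeries.coeff (expPair j i) := by
  let em : Fin 2 ↪ Fin 2 := ⟨![1, 0], by decide⟩
  have h : F.toPowerSeries = rename em F.toPowerSeries := by
    rw [rename_eq_subst, show (X ∘ em : Fin 2 → MvPowerSeries (Fin 2) R) = ![X 1, X 0] from
      funext fun s => by fin_cases s <;> rfl]
    exact hF.comm
  conv_lhs => rw [h, show expPair i j = embDomain em (expPair j i) by
    simp [expPair, embDomain_eq_mapDomain, mapDomain_add, em, add_comm]]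
  exact coeff_embDomain_rename em _ _

omit hF in
theorem coeff_edge (m : ℕ) : F.toPowerSeries.coeff (expPair m 0) = if m = 1 then 1 else 0 := by
  classical
  have hc : ∀ p : PowerSeries R, coeff (single () m) p = PowerSeries.coeff m p := fun _ => rfl
  have hs : HasSubst ![(PowerSeries.X : PowerSeries R), 0] := HasSubst.X_zero
  have h := congrArg (PowerSeries.coeff m) F.Xzero_eq_X
  rw [PowerSeries.coeff_X, PowerSeries.coeff, FormalGroup.Xzero, coeff_subst hs,
    finsum_eq_single _ (expPair m 0)] at h
  · rw [← h, Finsupp.prod_fintype _ _ (fun s => pow_zero _), Fin.prod_univ_two]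
    simp [PowerSeries.coeff_X_pow, smul_eq_mul, hc]
  · intro d hd
    rw [Finsupp.prod_fintype _ _ (fun s => pow_zero _), Fin.prod_univ_two]
    rcases eq_or_ne (d 1) 0 with h1 | h1
    · have h0 : d 0 ≠ m := fun h0 => hd (by rw [← expPair_eta d, h0, h1])
      simp [h1, PowerSeries.coeff_X_pow, hc, Ne.symm h0]
    · simp [h1]

include hF in
/-- **Generators**: the coefficients of degree `n` lie in the ring of the lower ones and one
more element. -/
theorem exists_extra_generator (B : Subring R) (n : ℕ) (hn : 2 ≤ n)
    (hB : ∀ d, degree d < n → F.toPowerSeries.coeff d ∈ B) :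
    ∃ t : R, ∀ B' : Subring R, B ≤ B' → t ∈ B' →
      ∀ d, degree d = n → F.toPowerSeries.coeff d ∈ B' := by
  obtain ⟨u, -, hu⟩ := exists_generator n hn
  set π := QuotientAddGroup.mk' B.toAddSubgroup
  set c : ℕ → R ⧸ B.toAddSubgroup := fun i => π (F.toPowerSeries.coeff (expPair i (n - i)))
  have hc : IsSymmCocycle n c := by
    refine ⟨fun i hi hin => ?_, fun i j k hi hj hk h => ?_⟩
    · simp only [c, coeff_symm F (n - i), show n - (n - i) = i by omega]
    · have h1 := coeff_assoc_mod F B n hB 0 1 2 (by decide) (by decide) (by decide) i j k hk h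
      have h2 := coeff_assoc_mod F B n hB 1 2 0 (by decide) (by decide) (by decide) j k i hi
        (by omega)
      rw [F.assoc, F.comm' (PowerSeries.HasSubst.of_constantCoeff_zero (constantCoeff_X 0))
        (PowerSeries.HasSubst.of_constantCoeff_zero (constantCoeff_subst_eq_zero HasSubst.X_X
          (by simp) F.zero_constantCoeff)), show (single 0 i + single 1 j + single 2 k :
          Fin 3 →₀ ℕ) = single 1 j + single 2 k + single 0 i by abel, h2] at h1
      rw [coeff_symm F (j + k)] at h1
      simpa [c, π, show n - (i + j) = k by omega, show n - i = j + k by omega] using h1.symm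
  obtain ⟨a, ha⟩ := hu c hc
  obtain ⟨t, rfl⟩ := QuotientAddGroup.mk'_surjective B.toAddSubgroup a
  refine ⟨t, fun B' hBB' ht d hd => ?_⟩
  rw [← expPair_eta d, degree_expPair] at hd
  rw [← expPair_eta d]
  rcases Nat.eq_zero_or_pos (d 1) with h1 | h1
  · rw [h1, coeff_edge, if_neg (by omega)]; exact B'.zero_mem
  rcases Nat.eq_zero_or_pos (d 0) with h0 | h0
  · rw [h0, coeff_symm, coeff_edge, if_neg (by omega)]; exact B'.zero_mem
  have h := ha (d 0) h0 (by omega)
  rw [← map_zsmul] at h
  have hmem := QuotientAddGroup.eq.1 h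
  rw [show n - d 0 = d 1 by omega] at hmem
  have := B'.sub_mem (B'.zsmul_mem ht (u (d 0))) (hBB' hmem)
  simpa using this

end Fermat.Agent.Lazard
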