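import Fermat.Agent.Lazard.Logarithm
import Fermat.Agent.Lazard.Universal
import Mathlib.Algebra.MvPolynomial.Rename
import Mathlib.RingTheory.Polynomial.Basic

/-!
# The theorem of Lazard: the ring of Lazard is a polynomial ring

It is generated by one element in each degree by Lazard's lemma on cocycles. For the independence
of the first `N` generators we map to `ℚ[m₁, …, m_N]` by the law with logarithm
`X + ∑ mᵢ X ^ (i + 1)`: the coefficients of the logarithm are in the algebra of the coefficients
of the law, so the generators give a surjective, hence injective, endomorphism.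
-/

set_option autoImplicit false

noncomputable section

open MvPowerSeries Finsupp

namespace Fermat.Agent.Lazard

/-- Surjective endomorphisms of noetherian rings are injective. -/
theorem injective_of_surjective_endo {A : Type*} [CommRing A] [IsNoetherianRing A] (f : A →+* A)
    (hf : Function.Surjective f) : Function.Injective f := by
  rw [injective_iff_map_eq_zero]
  intro a ha
  have hiter : ∀ n, Function.Surjective (f ^ n : A →+* A) := fun n => by
    induction n with
    | zero => exact fun b => ⟨b, rfl⟩
    | succ n ih => rw [pow_succ']; exact hf.comp ih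
  let ker : ℕ →o Ideal A := ⟨fun n => RingHom.ker (f ^ n : A →+* A), monotone_nat_of_le_succ
    fun n b hb => by
      rw [RingHom.mem_ker] at hb ⊢
      rw [pow_succ', RingHom.mul_def, RingHom.comp_apply, hb, map_zero]⟩
  obtain ⟨n, hn⟩ := monotone_stabilizes_iff_noetherian.2 inferInstance ker
  obtain ⟨b, rfl⟩ := hiter n a
  have hb : b ∈ ker (n + 1) := by
    show b ∈ RingHom.ker (f ^ (n + 1) : A →+* A)
    rw [RingHom.mem_ker, pow_succ', RingHom.mul_def, RingHom.comp_apply, ha]
  rw [← hn (n + 1) (Nat.le_succ n)] at hb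
  exact RingHom.mem_ker.1 hb

/-- The generic logarithm with `N` parameters. -/
def genericLog (N : ℕ) : PowerSeries (MvPolynomial (Fin N) ℚ) :=
  PowerSeries.mk fun k => if k = 1 then 1
    else if h : 2 ≤ k ∧ k - 2 < N then MvPolynomial.X ⟨k - 2, h.2⟩ else 0

theorem constantCoeff_genericLog (N : ℕ) : (genericLog N).constantCoeff = 0 := by
  rw [← PowerSeries.coeff_zero_eq_constantCoeff_apply, genericLog, PowerSeries.coeff_mk,
    if_neg (by omega), dif_neg (by omega)]

theorem coeff_one_genericLog (N : ℕ) : (genericLog N).coeff 1 = 1 := by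
  rw [genericLog, PowerSeries.coeff_mk, if_pos rfl]

theorem injective_generators (t : ℕ → LazardRing)
    (ht : ∀ n, ∀ d, degree d ≤ n + 1 →
      universalLaw.toPowerSeries.coeff d ∈ Subring.closure (t '' {m | m < n})) (N : ℕ) :
    Function.Injective (MvPolynomial.eval₂Hom (Int.castRingHom LazardRing)
      fun i : Fin N => t i) := by
  classical
  set g := genericLog N
  set hg0 := constantCoeff_genericLog N
  set hg1 := coeff_one_genericLog N
  obtain ⟨ψ, hψ, -⟩ := universalLaw_universal (ofLog g hg0 hg1)
  set f : MvPolynomial (Fin N) ℚ →ₐ[ℚ] MvPolynomial (Fin N) ℚ :=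
    MvPolynomial.aeval fun i : Fin N => ψ (t i) with hf
  have hS : ∀ d, degree d ≤ N + 1 → (addLogSeries g hg1).coeff d ∈ f.range := fun d hd => by
    have h : ψ (universalLaw.toPowerSeries.coeff d) = (addLogSeries g hg1).coeff d := by
      rw [← coeff_map, ← FormalGroup.map_toPowerSeries, hψ]
      rfl
    rw [← h]
    refine (Subring.closure_le (t := (f.range.toSubring).comap ψ)).2 ?_ (ht N d hd)
    rintro _ ⟨m, hm, rfl⟩
    exact ⟨MvPolynomial.X ⟨m, hm⟩, by simp [hf]⟩
  have hsurj : Function.Surjective f := by
    rw [← AlgHom.range_eq_top, eq_top_iff, ← MvPolynomial.adjoin_range_X, Algebra.adjoin_le_iff]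
    rintro _ ⟨i, rfl⟩
    have h := coeff_log_mem g hg0 hg1 f.range (N + 1) hS ((i : ℕ) + 2) (by omega)
    simp only [g, genericLog, PowerSeries.coeff_mk, if_neg (by omega : (i : ℕ) + 2 ≠ 1),
      dif_pos (⟨by omega, by omega⟩ : 2 ≤ (i : ℕ) + 2 ∧ (i : ℕ) + 2 - 2 < N)] at h
    simpa using h
  have hinj : Function.Injective f := injective_of_surjective_endo f.toRingHom hsurj
  rw [injective_iff_map_eq_zero]
  intro q hq
  refine (MvPolynomial.map_injective (Int.castRingHom ℚ) Int.cast_injective) (hinj ?_)
  rw [map_zero, map_zero, ← map_zero ψ, ← hq]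
  refine RingHom.congr_fun (MvPolynomial.ringHom_ext
    (f := f.toRingHom.comp (MvPolynomial.map (Int.castRingHom ℚ))) (g := ψ.comp _)
    (fun r => by simp) fun i => by simp [hf]) q

/-- **Lazard**: the ring of Lazard is a polynomial ring in countably many variables. -/
theorem nonempty_ringEquiv : Nonempty (MvPolynomial ℕ ℤ ≃+* LazardRing) := by
  classical
  obtain ⟨t, htop, ht⟩ := exists_generators
  set θ := MvPolynomial.eval₂Hom (Int.castRingHom LazardRing) t with hθ
  refine ⟨RingEquiv.ofBijective θ ⟨?_, ?_⟩⟩
  · rw [injective_iff_map_eq_zero]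
    intro p hp
    obtain ⟨s, q, rfl⟩ := MvPolynomial.exists_finset_rename p
    obtain ⟨N, hN⟩ : ∃ N, ∀ m ∈ s, m < N :=
      ⟨s.sup id + 1, fun m hm => Nat.lt_succ_of_le (Finset.le_sup (f := id) hm)⟩
    set e : s → Fin N := fun m => ⟨m, hN m m.2⟩
    have he : Function.Injective e := fun a b h => Subtype.ext (congrArg Fin.val h)
    have h0 : MvPolynomial.rename e q = 0 := injective_generators t ht N (by
      rw [map_zero, ← hp, hθ, MvPolynomial.eval₂Hom_rename, MvPolynomial.eval₂Hom_rename]
      rfl)
    rw [MvPolynomial.rename_injective e he (h0.trans (map_zero _).symm), map_zero]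
  · rw [← RingHom.range_eq_top, eq_top_iff, ← htop, Subring.closure_le]
    rintro _ ⟨m, rfl⟩
    exact ⟨MvPolynomial.X m, by simp [hθ]⟩

/-- **Lazard**: some commutative formal group law over `ℤ[t₀, t₁, …]` is universal. -/
theorem exists_universal_over_polynomialRing :
    ∃ (F : FormalGroup (MvPolynomial ℕ ℤ)) (_ : F.IsComm), ∀ {R : Type*} [CommRing R]
      (G : FormalGroup R) [G.IsComm], ∃! φ : MvPolynomial ℕ ℤ →+* R, F.map φ = G := by
  obtain ⟨e⟩ := nonempty_ringEquiv
  have hmap : ∀ {R : Type _} [CommRing R] (φ : MvPolynomial ℕ ℤ →+* R),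
      (universalLaw.map e.symm.toRingHom).map φ = universalLaw.map (φ.comp e.symm.toRingHom) :=
    fun φ => FormalGroup.ext rfl
  refine ⟨universalLaw.map e.symm.toRingHom, ⟨?_⟩, fun {R} _ G _ => ?_⟩
  · show _ = swapped _
    rw [FormalGroup.map_toPowerSeries, ← map_swapped]
    exact congrArg _ FormalGroup.IsComm.comm
  obtain ⟨φ, hφ, huniq⟩ := universalLaw_universal G
  refine ⟨φ.comp e.toRingHom, ?_, fun φ' hφ' => ?_⟩
  · show (universalLaw.map _).map _ = G
    rw [hmap, RingHom.comp_assoc, show e.toRingHom.comp e.symm.toRingHom = RingHom.id _ from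
      RingHom.ext e.apply_symm_apply]
    exact hφ
  · rw [← huniq (φ'.comp e.symm.toRingHom) ((hmap φ').symm.trans hφ'), RingHom.comp_assoc,
      show e.symm.toRingHom.comp e.toRingHom = RingHom.id _ from
        RingHom.ext e.symm_apply_apply, RingHom.comp_id]

end Fermat.Agent.Lazard
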